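import Fermat.Agent.S17.VT.Chevalley

/-!
# S17 / VT 2 : homogeneous integral relations from valuative inequalities, and their specialisation
-/

set_option autoImplicit false

open MvPolynomial

namespace Fermat.Agent.S17.VT

/-- a monic homogeneous integral relation `s ^ N + A 1 (t) s ^ (N-1) + ... + A N (t) = 0`,
`A i` homogeneous of degree `i` with coefficients in `k`. -/
structure HRel (k : Type*) [CommSemiring k] (β : Type*) where
  N : ℕ
  N_pos : 0 < N
  A : ℕ → MvPolynomial β k
  A_zero : A 0 = 1
  homog : ∀ i, (A i).IsHomogeneous i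

/-- the relation holds for `s` and the vector `t`. -/
def HRel.Holds {k : Type*} [CommSemiring k] {β : Type*} (R : HRel k β) {L : Type*} [CommSemiring L]
    [Algebra k L] (s : L) (t : β → L) : Prop :=
  ∑ i ∈ Finset.range (R.N + 1), aeval t (R.A i) * s ^ (R.N - i) = 0

variable {k Ω : Type*} [Field k] [Field Ω] [Algebra k Ω]

namespace RelAux

/-- scaling the variables of a homogeneous polynomial -/
lemma aeval_mul_of_isHomogeneous {k L β : Type*} [CommSemiring k] [CommSemiring L] [Algebra k L]
    {p : MvPolynomial β k} {n : ℕ} (hp : p.IsHomogeneous n) (c : L) (x : β → L) :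
    aeval (fun b => c * x b) p = c ^ n * aeval x p := by
  rw [aeval_def, aeval_def, eval₂_eq, eval₂_eq, Finset.mul_sum]
  refine Finset.sum_congr rfl fun d hd => ?_
  simp only [mul_pow, Finset.prod_mul_distrib, Finset.prod_pow_eq_pow_sum]
  rw [← hp.degree_eq_sum_deg_support hd]
  ring

end RelAux

open RelAux

/-- relations are invariant under common rescaling. -/
theorem HRel.Holds.smul {β : Type*} {R : HRel k β} {s : Ω} {t : β → Ω} (h : R.Holds s t) (c : Ω) :
    R.Holds (c * s) (fun b => c * t b) := by
  unfold HRel.Holds at h ⊢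
  have : ∀ i ∈ Finset.range (R.N + 1), aeval (fun b => c * t b) (R.A i) * (c * s) ^ (R.N - i)
      = c ^ R.N * (aeval t (R.A i) * s ^ (R.N - i)) := by
    intro i hi
    have hi' : i ≤ R.N := Nat.lt_succ_iff.1 (Finset.mem_range.1 hi)
    rw [aeval_mul_of_isHomogeneous (R.homog i), mul_pow]
    have : c ^ R.N = c ^ i * c ^ (R.N - i) := by rw [← pow_add, Nat.add_sub_cancel' hi']
    rw [this]
    ring
  rw [Finset.sum_congr rfl this, ← Finset.mul_sum, h, mul_zero]

namespace RelAux

/-- coefficient of `X^j` in `p(tX)` -/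
lemma coeff_aeval_X_mul {β : Type*} (t : β → Ω) (p : MvPolynomial β k) (j : ℕ) :
    (aeval (fun b => (Polynomial.X : Polynomial Ω) * Polynomial.C (t b)) p).coeff j
      = aeval t (homogeneousComponent j p) := by
  have h1 : ∀ i, aeval (fun b => (Polynomial.X : Polynomial Ω) * Polynomial.C (t b))
      (homogeneousComponent i p)
      = Polynomial.monomial i (aeval t (homogeneousComponent i p)) := by
    intro i
    rw [aeval_mul_of_isHomogeneous (homogeneousComponent_isHomogeneous i p)]
    have := MvPolynomial.aeval_algebraMap_apply (B := Polynomial Ω) t (homogeneousComponent i p)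
    rw [← Polynomial.C_mul_X_pow_eq_monomial, mul_comm, Polynomial.C_eq_algebraMap, ← this]
    rfl
  conv_lhs => rw [← sum_homogeneousComponent p, map_sum]
  rw [Polynomial.finsetSum_coeff]
  simp only [h1, Polynomial.coeff_monomial]
  rw [Finset.sum_ite_eq']
  split_ifs with hj
  · rfl
  · rw [homogeneousComponent_eq_zero, map_zero]
    rw [Finset.mem_range] at hj
    omega

lemma valuation_lt_one_iff' {F : Type*} [Field F] (B : ValuationSubring F) (x : F) :
    B.valuation x < 1 ↔ x = 0 ∨ x⁻¹ ∉ B := by
  by_cases hx : x = 0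
  · simp [hx]
  · have h0 : 0 < B.valuation x := zero_lt_iff.2 ((B.valuation.ne_zero_iff).2 hx)
    rw [← B.valuation_le_one_iff, map_inv₀, inv_le_one₀ h0, not_le]
    simp [hx]

lemma valuation_comap_lt_one_iff {F L : Type*} [Field F] [Field L] (B : ValuationSubring L)
    (f : F →+* L) (x : F) : (B.comap f).valuation x < 1 ↔ B.valuation (f x) < 1 := by
  rw [valuation_lt_one_iff', valuation_lt_one_iff', ValuationSubring.mem_comap, map_inv₀,
    map_eq_zero]

lemma isScalarTower_ratFunc : IsScalarTower k Ω (RatFunc Ω) := by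
  refine IsScalarTower.of_algebraMap_eq fun x => ?_
  rw [IsScalarTower.algebraMap_apply k (Polynomial Ω) (RatFunc Ω),
    IsScalarTower.algebraMap_apply Ω (Polynomial Ω) (RatFunc Ω),
    IsScalarTower.algebraMap_apply k Ω (Polynomial Ω)]

lemma isKRat_comap {O' : ValuationSubring (RatFunc Ω)} (hO' : IsKRat k O') :
    IsKRat k (O'.comap (algebraMap Ω (RatFunc Ω))) := by
  have : IsScalarTower k Ω (RatFunc Ω) := isScalarTower_ratFunc
  refine ⟨fun c => ?_, fun y hy => ?_⟩
  · rw [ValuationSubring.mem_comap, ← IsScalarTower.algebraMap_apply k Ω (RatFunc Ω)]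
    exact hO'.algebraMap_mem c
  · obtain ⟨c, hc⟩ := hO'.exists_res _ (ValuationSubring.mem_comap.1 hy)
    refine ⟨c, ?_⟩
    rw [valuation_comap_lt_one_iff, map_sub, ← IsScalarTower.algebraMap_apply k Ω (RatFunc Ω)]
    exact hc

end RelAux

/-- **(M2)** if `v(s) ≤ max_b v(t b)` for all valuation rings with residue field `k`, then `s`
satisfies a homogeneous integral relation over `k[t]`. -/
theorem exists_hRel [IsAlgClosed k] {β : Type*} [Finite β] (t : β → Ω) (s : Ω)
    (h : ∀ O : ValuationSubring Ω, IsKRat k O → ∃ b, O.valuation s ≤ O.valuation (t b)) :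
    ∃ R : HRel k β, R.Holds s t := by
  classical
  set ι : Polynomial Ω →+* RatFunc Ω := algebraMap _ _ with hι
  set f : Ω →+* RatFunc Ω := algebraMap _ _ with hf
  have hιC : ∀ a, ι (Polynomial.C a) = f a := fun a =>
    (IsScalarTower.algebraMap_apply Ω (Polynomial Ω) (RatFunc Ω) a).symm
  set tX : β → Polynomial Ω := fun b => Polynomial.X * Polynomial.C (t b) with htX
  set sX : Polynomial Ω := Polynomial.X * Polynomial.C s with hsX
  have hint : IsIntegral (Algebra.adjoin k (Set.range fun b => ι (tX b))) (ι sX) := by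
    refine isIntegral_adjoin_of_forall_isKRat _ _ fun O' hO' ht' => ?_
    obtain ⟨b, hb⟩ := h _ (isKRat_comap hO')
    by_cases htb : t b = 0
    · rw [htb, map_zero, le_zero_iff, map_eq_zero] at hb
      rw [hsX, hb, map_zero, mul_zero, map_zero]
      exact O'.zero_mem
    · have h1 : s / t b ∈ O'.comap f := by
        rw [← ValuationSubring.valuation_le_one_iff, map_div₀]
        exact div_le_one_of_le₀ hb zero_le
      have h2 : ι sX = f (s / t b) * ι (tX b) := by
        rw [hsX, htX, map_mul, map_mul, hιC, hιC, map_div₀]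
        have : f (t b) ≠ 0 := (map_ne_zero f).2 htb
        field_simp
      rw [h2]
      exact O'.mul_mem _ _ (ValuationSubring.mem_comap.1 h1) (ht' b)
  obtain ⟨P, hPm, hP⟩ := hint
  rw [Polynomial.eval₂_eq_sum_range] at hP
  have hex : ∀ j, ∃ p : MvPolynomial β k, ι (aeval tX p) = ((P.coeff j : _) : RatFunc Ω) := by
    intro j
    have h1 : ((P.coeff j : _) : RatFunc Ω) ∈ (aeval (R := k) fun b => ι (tX b)).range := by
      rw [← Algebra.adjoin_range_eq_range_aeval]
      exact (P.coeff j).2
    obtain ⟨p, hp⟩ := h1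
    refine ⟨p, ?_⟩
    rw [← hp]
    exact (MvPolynomial.aeval_algebraMap_apply (B := RatFunc Ω) tX p).symm
  choose p hp using hex
  set N := P.natDegree with hN
  have hN0 : 0 < N := by
    rw [Nat.pos_iff_ne_zero]
    intro h0
    rw [h0] at hP
    have h1 : P = 1 := hPm.natDegree_eq_zero.1 (hN.symm.trans h0)
    rw [h1] at hP
    simp at hP
  set B : ℕ → MvPolynomial β k := fun j => if j = N then 1 else p j with hB
  have hBp : ∀ j, ι (aeval tX (B j)) = ((P.coeff j : _) : RatFunc Ω) := by
    intro j
    by_cases hj : j = N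
    · rw [hB]
      simp only [hj, if_true, map_one]
      rw [hN, hPm.coeff_natDegree]
      rfl
    · rw [hB]
      simp only [hj, if_false]
      exact hp j
  have hrel : ∑ j ∈ Finset.range (N + 1), aeval tX (B j) * sX ^ j = 0 := by
    apply IsFractionRing.injective (Polynomial Ω) (RatFunc Ω)
    rw [map_zero, ← hP, map_sum]
    refine Finset.sum_congr rfl fun j _ => ?_
    rw [map_mul, map_pow]
    congr 1
    exact hBp j
  have hcoeff := congrArg (fun Q : Polynomial Ω => Q.coeff N) hrel
  simp only [Polynomial.finsetSum_coeff, Polynomial.coeff_zero] at hcoeff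
  have hterm : ∀ j ∈ Finset.range (N + 1), (aeval tX (B j) * sX ^ j).coeff N
      = aeval t (homogeneousComponent (N - j) (B j)) * s ^ j := by
    intro j hj
    have hj' : j ≤ N := Nat.lt_succ_iff.1 (Finset.mem_range.1 hj)
    have e : aeval tX (B j) * sX ^ j = (aeval tX (B j) * Polynomial.C (s ^ j)) * Polynomial.X ^ j := by
      rw [hsX, mul_pow, Polynomial.C_pow]; ring
    rw [e, Polynomial.coeff_mul_X_pow', if_pos hj', Polynomial.coeff_mul_C, coeff_aeval_X_mul]
  rw [Finset.sum_congr rfl hterm] at hcoeff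
  refine ⟨⟨N, hN0, fun i => homogeneousComponent i (B (N - i)), ?_,
    fun i => homogeneousComponent_isHomogeneous _ _⟩, ?_⟩
  · simp [hB]
  · unfold HRel.Holds
    simp only
    rw [← hcoeff, ← Finset.sum_flip]
    refine Finset.sum_congr rfl fun i hi => ?_
    have hi' : i ≤ N := Nat.lt_succ_iff.1 (Finset.mem_range.1 hi)
    rw [Nat.sub_sub_self hi']

/-- **(M4)** relations pass to residues. -/
theorem HRel.Holds.res {β : Type*} {R : HRel k β} {s : Ω} {t : β → Ω} (h : R.Holds s t)
    {O : ValuationSubring Ω} (hO : IsKRat k O) (hs : s ∈ O) (ht : ∀ b, t b ∈ O) :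
    R.Holds (hO.res s) (fun b => hO.res (t b)) := by
  unfold HRel.Holds at h ⊢
  set P : MvPolynomial (Option β) k :=
    ∑ i ∈ Finset.range (R.N + 1), rename some (R.A i) * X none ^ (R.N - i) with hP
  set x : Option β → Ω := fun o => o.elim s t with hx
  have hxO : ∀ o, x o ∈ O := by
    intro o
    cases o with
    | none => exact hs
    | some b => exact ht b
  have h1 : aeval x P = 0 := by
    rw [hP, map_sum, ← h]
    refine Finset.sum_congr rfl fun i _ => ?_
    rw [map_mul, map_pow, aeval_X, aeval_rename]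
    rfl
  have h2 := (hO.res_aeval x hxO P).2
  rw [h1] at h2
  have h3 : hO.res (0 : Ω) = 0 := by
    have := hO.res_algebraMap 0
    rwa [map_zero] at this
  rw [h3, hP, map_sum] at h2
  rw [h2]
  refine Finset.sum_congr rfl fun i _ => ?_
  rw [map_mul, map_pow, eval_X, eval_rename, aeval_eq_eval]
  rfl

namespace RelAux

/-- valuation of a homogeneous polynomial with integral coefficients -/
lemma valuation_aeval_le {β : Type*} (O : ValuationSubring Ω)
    (hO : ∀ c : k, algebraMap k Ω c ∈ O) {p : MvPolynomial β k} {n : ℕ} (hp : p.IsHomogeneous n)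
    (t : β → Ω) (g : O.ValueGroup) (hg : ∀ b, O.valuation (t b) ≤ g) :
    O.valuation (aeval t p) ≤ g ^ n := by
  rw [aeval_def, eval₂_eq]
  refine O.valuation.map_sum_le fun d hd => ?_
  rw [map_mul, map_prod]
  calc O.valuation (algebraMap k Ω (coeff d p)) * ∏ b ∈ d.support, O.valuation (t b ^ d b)
      ≤ 1 * ∏ b ∈ d.support, g ^ d b := by
        refine mul_le_mul' ((O.valuation_le_one_iff _).2 (hO _)) ?_
        refine Finset.prod_le_prod' fun b _ => ?_
        rw [map_pow]
        exact pow_le_pow_left₀ zero_le (hg b) _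
    _ = g ^ n := by
        rw [one_mul, Finset.prod_pow_eq_pow_sum, ← hp.degree_eq_sum_deg_support hd]

end RelAux

/-- a relation forces `v(s) ≤ max_b v(t b)` for every valuation which is trivial on `k`. -/
theorem HRel.Holds.exists_valuation_le {β : Type*} [Finite β] [Nonempty β] {R : HRel k β} {s : Ω}
    {t : β → Ω} (h : R.Holds s t) (O : ValuationSubring Ω)
    (hO : ∀ c : k, algebraMap k Ω c ∈ O) : ∃ b, O.valuation s ≤ O.valuation (t b) := by
  obtain ⟨b₀, hb₀⟩ := Finite.exists_max fun b => O.valuation (t b)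
  refine ⟨b₀, ?_⟩
  by_contra hlt
  rw [not_le] at hlt
  unfold HRel.Holds at h
  rw [Finset.sum_range_succ', R.A_zero, map_one, one_mul, Nat.sub_zero] at h
  have hs0 : 0 < O.valuation s := lt_of_le_of_lt zero_le hlt
  have h1 : O.valuation (∑ i ∈ Finset.range R.N, aeval t (R.A (i + 1)) * s ^ (R.N - (i + 1)))
      < O.valuation s ^ R.N := by
    refine O.valuation.map_sum_lt (pow_ne_zero _ hs0.ne') fun i hi => ?_
    have hi' : i + 1 ≤ R.N := Finset.mem_range.1 hi
    rw [map_mul, map_pow]
    calc O.valuation (aeval t (R.A (i + 1))) * O.valuation s ^ (R.N - (i + 1))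
        ≤ O.valuation (t b₀) ^ (i + 1) * O.valuation s ^ (R.N - (i + 1)) :=
          mul_le_mul_left (valuation_aeval_le O hO (R.homog _) t _ hb₀) _
      _ < O.valuation s ^ (i + 1) * O.valuation s ^ (R.N - (i + 1)) := by
          refine mul_lt_mul_of_pos_right ?_ (pow_pos hs0 _)
          exact pow_lt_pow_left₀ hlt zero_le (Nat.succ_ne_zero i)
      _ = O.valuation s ^ R.N := by rw [← pow_add, Nat.add_sub_cancel' hi']
  have h2 : s ^ R.N = -∑ i ∈ Finset.range R.N, aeval t (R.A (i + 1)) * s ^ (R.N - (i + 1)) := by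
    linear_combination h
  have h3 := congrArg O.valuation h2
  rw [Valuation.map_neg, map_pow] at h3
  exact absurd h3.symm h1.ne

end Fermat.Agent.S17.VT
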