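import Mathlib

/-!
# S17 / VT (valuative transfer) 1 : valuation rings with residue field `k`

`k` algebraically closed, `Ω / k` any field extension.  `IsKRat k O` : the valuation subring `O`
of `Ω` contains `k` and its residue field is `k`.

* `exists_isKRat_of_algHom` (Chevalley's extension theorem, Atiyah-Macdonald 5.21).
* `isIntegral_adjoin_of_forall_isKRat` : valuative criterion of integrality over a finitely
  generated `k`-algebra which only uses the valuation rings with residue field `k`.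
-/

set_option autoImplicit false

namespace Fermat.Agent.S17.VT

variable (k : Type*) {Ω : Type*} [Field k] [Field Ω] [Algebra k Ω]

/-- the valuation subring `O` of `Ω` contains `k` and has residue field `k`. -/
structure IsKRat (O : ValuationSubring Ω) : Prop where
  algebraMap_mem : ∀ c : k, algebraMap k Ω c ∈ O
  exists_res : ∀ y ∈ O, ∃ c : k, O.valuation (y - algebraMap k Ω c) < 1

variable {k}

namespace IsKRat

variable {O : ValuationSubring Ω} (hO : IsKRat k O)

/-- the residue of an element of `Ω` (junk value `0` outside `O`). -/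
noncomputable def res (hO : IsKRat k O) (y : Ω) : k :=
  open Classical in if h : y ∈ O then (hO.exists_res y h).choose else 0

include hO

theorem valuation_sub_res_lt {y : Ω} (hy : y ∈ O) :
    O.valuation (y - algebraMap k Ω (hO.res y)) < 1 := by
  unfold res
  rw [dif_pos hy]
  exact (hO.exists_res y hy).choose_spec

theorem valuation_algebraMap {c : k} (hc : c ≠ 0) : O.valuation (algebraMap k Ω c) = 1 := by
  have h1 := (O.valuation_le_one_iff _).2 (hO.algebraMap_mem c)
  have h2 := (O.valuation_le_one_iff _).2 (hO.algebraMap_mem c⁻¹)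
  rw [map_inv₀, map_inv₀] at h2
  have h0 : O.valuation (algebraMap k Ω c) ≠ 0 := by
    rw [Valuation.ne_zero_iff]
    simpa using hc
  refine le_antisymm h1 ?_
  rwa [inv_le_one₀ (zero_lt_iff.2 h0)] at h2

theorem res_unique {y : Ω} {c : k} (h : O.valuation (y - algebraMap k Ω c) < 1) :
    hO.res y = c := by
  have hy : y ∈ O := by
    have : y = (y - algebraMap k Ω c) + algebraMap k Ω c := by ring
    rw [this]
    exact O.add_mem _ _ ((O.valuation_le_one_iff _).1 h.le) (hO.algebraMap_mem c)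
  have h1 := hO.valuation_sub_res_lt hy
  by_contra hne
  have h2 : O.valuation (algebraMap k Ω (c - hO.res y)) = 1 :=
    hO.valuation_algebraMap (sub_ne_zero.2 (Ne.symm hne))
  have h3 : algebraMap k Ω (c - hO.res y)
      = (y - algebraMap k Ω (hO.res y)) - (y - algebraMap k Ω c) := by
    rw [map_sub]
    ring
  rw [h3] at h2
  have h4 := Valuation.map_sub_lt _ h1 h
  rw [h2] at h4
  exact lt_irrefl _ h4

theorem res_algebraMap (c : k) : hO.res (algebraMap k Ω c) = c :=
  hO.res_unique (by simp)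

theorem res_add {x y : Ω} (hx : x ∈ O) (hy : y ∈ O) : hO.res (x + y) = hO.res x + hO.res y := by
  apply hO.res_unique
  have : x + y - algebraMap k Ω (hO.res x + hO.res y)
      = (x - algebraMap k Ω (hO.res x)) + (y - algebraMap k Ω (hO.res y)) := by
    rw [map_add]
    ring
  rw [this]
  exact Valuation.map_add_lt _ (hO.valuation_sub_res_lt hx) (hO.valuation_sub_res_lt hy)

theorem res_mul {x y : Ω} (hx : x ∈ O) (hy : y ∈ O) : hO.res (x * y) = hO.res x * hO.res y := by
  apply hO.res_unique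
  have : x * y - algebraMap k Ω (hO.res x * hO.res y)
      = (x - algebraMap k Ω (hO.res x)) * y
        + algebraMap k Ω (hO.res x) * (y - algebraMap k Ω (hO.res y)) := by
    rw [map_mul]
    ring
  rw [this]
  refine Valuation.map_add_lt _ ?_ ?_
  · rw [map_mul]
    exact lt_of_le_of_lt (mul_le_of_le_one_right' ((O.valuation_le_one_iff _).2 hy))
      (hO.valuation_sub_res_lt hx)
  · rw [map_mul]
    exact lt_of_le_of_lt
      (mul_le_of_le_one_left' ((O.valuation_le_one_iff _).2 (hO.algebraMap_mem _)))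
      (hO.valuation_sub_res_lt hy)

theorem res_eq_zero_iff {y : Ω} (hy : y ∈ O) : hO.res y = 0 ↔ O.valuation y < 1 := by
  constructor
  · intro h
    have := hO.valuation_sub_res_lt hy
    rwa [h, map_zero, sub_zero] at this
  · intro h
    exact hO.res_unique (by rwa [map_zero, sub_zero])

/-- residues commute with polynomial expressions with coefficients in `k`. -/
theorem res_aeval {ι : Type*} (x : ι → Ω) (hx : ∀ i, x i ∈ O) (p : MvPolynomial ι k) :
    MvPolynomial.aeval x p ∈ O ∧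
      hO.res (MvPolynomial.aeval x p) = MvPolynomial.eval (fun i => hO.res (x i)) p := by
  induction p using MvPolynomial.induction_on with
  | C a =>
    rw [MvPolynomial.aeval_C, MvPolynomial.eval_C]
    exact ⟨hO.algebraMap_mem a, hO.res_algebraMap a⟩
  | add p q hp hq =>
    rw [map_add, map_add]
    exact ⟨O.add_mem _ _ hp.1 hq.1, by rw [hO.res_add hp.1 hq.1, hp.2, hq.2]⟩
  | mul_X p i hp =>
    rw [map_mul, map_mul, MvPolynomial.aeval_X, MvPolynomial.eval_X]
    exact ⟨O.mul_mem _ _ hp.1 (hx i), by rw [hO.res_mul hp.1 (hx i), hp.2]⟩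

end IsKRat

variable [IsAlgClosed k]

namespace Chev

open Polynomial

omit [IsAlgClosed k] in
/-- a proper ideal of `k[X]` has a common zero -/
theorem exists_common_root [IsAlgClosed k] (J : Ideal k[X]) (hJ : J ≠ ⊤) :
    ∃ c : k, ∀ q ∈ J, q.eval c = 0 := by
  set f₀ := Submodule.IsPrincipal.generator J with hf₀
  have hdeg : f₀.degree ≠ 0 := by
    intro h
    apply hJ
    exact Ideal.eq_top_of_isUnit_mem J (Submodule.IsPrincipal.generator_mem J)
      (Polynomial.isUnit_iff_degree_eq_zero.2 h)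
  obtain ⟨c, hc⟩ := IsAlgClosed.exists_root f₀ hdeg
  refine ⟨c, fun q hq => ?_⟩
  have := (Submodule.IsPrincipal.mem_iff_generator_dvd J).1 hq
  exact Polynomial.eval_eq_zero_of_dvd_of_eval_eq_zero this hc

omit [IsAlgClosed k] in
/-- Zorn: a maximal "graph". -/
theorem exists_maximal_graph (Γ₀ : Subalgebra k (Ω × k)) (h₀ : ((0 : Ω), (1 : k)) ∉ Γ₀) :
    ∃ Γ : Subalgebra k (Ω × k), Γ₀ ≤ Γ ∧ ((0 : Ω), (1 : k)) ∉ Γ ∧
      ∀ Γ' : Subalgebra k (Ω × k), ((0 : Ω), (1 : k)) ∉ Γ' → Γ ≤ Γ' → Γ' ≤ Γ := by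
  obtain ⟨Γ, h1, h2⟩ := zorn_le_nonempty₀ {Γ : Subalgebra k (Ω × k) | ((0 : Ω), (1 : k)) ∉ Γ}
    (by
      intro c hc hchain y hy
      refine ⟨sSup c, ?_, fun z hz => le_sSup hz⟩
      intro hmem
      have hne : Nonempty c := ⟨⟨y, hy⟩⟩
      rw [sSup_eq_iSup', ← SetLike.mem_coe,
        Subalgebra.coe_iSup_of_directed hchain.directedOn.directed_val, Set.mem_iUnion] at hmem
      obtain ⟨i, hi⟩ := hmem
      exact hc i.2 hi) Γ₀ h₀
  exact ⟨Γ, h1, h2.1, fun Γ' h h' => h2.2 h h'⟩

end Chev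

open Chev Polynomial in
/-- **Chevalley** : a `k`-algebra homomorphism `θ : R → k` on a subalgebra `R` of `Ω` is induced by
a valuation subring of `Ω` with residue field `k`. -/
theorem exists_isKRat_of_algHom (R : Subalgebra k Ω) (θ : R →ₐ[k] k) :
    ∃ O : ValuationSubring Ω, IsKRat k O ∧
      ∀ x : R, (x : Ω) ∈ O ∧ O.valuation ((x : Ω) - algebraMap k Ω (θ x)) < 1 := by
  have h₀ : ((0 : Ω), (1 : k)) ∉ (AlgHom.prod R.val θ).range := by
    rintro ⟨x, hx⟩
    have h1 : (x : Ω) = 0 := congrArg Prod.fst hx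
    have h2 : θ x = 1 := congrArg Prod.snd hx
    have h3 : x = 0 := Subtype.ext h1
    rw [h3, map_zero] at h2
    exact zero_ne_one h2
  obtain ⟨Γ, hΓ₀, hΓ, hmax⟩ := exists_maximal_graph _ h₀
  -- the subring and the ideal
  let A : Subring Ω := (Γ.map (AlgHom.fst k Ω k)).toSubring
  have hA : ∀ {x : Ω}, x ∈ A ↔ ∃ c : k, (x, c) ∈ Γ := by
    intro x
    constructor
    · rintro ⟨⟨y, c⟩, hy, rfl⟩
      exact ⟨c, hy⟩
    · rintro ⟨c, hc⟩
      exact ⟨(x, c), hc, rfl⟩
  let I : Ideal A :=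
    { carrier := {a | ((a : Ω), (0 : k)) ∈ Γ}
      add_mem' := by
        intro a b ha hb
        have := Γ.add_mem ha hb
        simpa using this
      zero_mem' := Γ.zero_mem
      smul_mem' := by
        intro a b hb
        obtain ⟨c, hc⟩ := hA.1 a.2
        have := Γ.mul_mem hc hb
        simpa using this }
  have hI : I ≠ ⊤ := by
    intro h
    have h1 : (1 : A) ∈ I := by
      rw [h]
      trivial
    have h2 : ((1 : Ω), (0 : k)) ∈ Γ := h1
    apply hΓ
    have h3 := Γ.sub_mem Γ.one_mem h2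
    have h4 : (1 : Ω × k) - ((1 : Ω), (0 : k)) = ((0 : Ω), (1 : k)) := by
      ext <;> simp
    rwa [h4] at h3
  obtain ⟨V, hAV, hIV⟩ := Ideal.image_subset_nonunits_valuationSubring I hI
  have hconst : ∀ c : k, (algebraMap k Ω c, c) ∈ Γ := fun c => Γ.algebraMap_mem c
  have F3 : ∀ (b : Ω) (c : k), (b, c) ∈ Γ → b ∈ V ∧ V.valuation (b - algebraMap k Ω c) < 1 := by
    intro b c hbc
    refine ⟨hAV (hA.2 ⟨c, hbc⟩), ?_⟩
    have h1 : (b - algebraMap k Ω c, (0 : k)) ∈ Γ := by
      have := Γ.sub_mem hbc (hconst c)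
      simpa using this
    have h2 : b - algebraMap k Ω c ∈ A := hA.2 ⟨0, h1⟩
    have h3 : b - algebraMap k Ω c ∈ V.nonunits := hIV ⟨⟨_, h2⟩, h1, rfl⟩
    exact (ValuationSubring.mem_nonunits_iff V).1 h3
  have F4 : ∀ x ∈ V, ∃ c : k, (x, c) ∈ Γ := by
    intro x hx
    let f : Γ →+* Ω := (RingHom.fst Ω k).comp (algebraMap Γ (Ω × k))
    let g : Γ →+* k := (RingHom.snd Ω k).comp (algebraMap Γ (Ω × k))
    have hg : Function.Surjective g := fun c => ⟨⟨_, hconst c⟩, rfl⟩
    have hfg : ∀ γ : Γ, g γ = 0 → V.valuation (f γ) < 1 := by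
      intro γ hγ
      have h1 : (f γ, g γ) ∈ Γ := γ.2
      have := (F3 _ _ h1).2
      rwa [hγ, map_zero, sub_zero] at this
    set J : Ideal k[X] := Ideal.map (Polynomial.mapRingHom g)
      (RingHom.ker (Polynomial.eval₂RingHom f x)) with hJdef
    have hJ : J ≠ ⊤ := by
      intro hJ
      have h1 : (1 : k[X]) ∈ J := by
        rw [hJ]
        trivial
      rw [hJdef, Ideal.mem_map_iff_of_surjective _ (Polynomial.map_surjective g hg)] at h1
      obtain ⟨p, hp, hp1⟩ := h1
      have hp0 : p.eval₂ f x = 0 := hp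
      have hp1' : p.map g = 1 := hp1
      have hcoeff : ∀ i, V.valuation (f ((p - 1).coeff i)) < 1 := by
        intro i
        apply hfg
        rw [← Polynomial.coeff_map, Polynomial.map_sub, hp1', Polynomial.map_one, sub_self,
          Polynomial.coeff_zero]
      have h2 : V.valuation ((p - 1).eval₂ f x) < 1 := by
        rw [Polynomial.eval₂_eq_sum_range]
        refine Valuation.map_sum_lt _ one_ne_zero fun i _ => ?_
        rw [map_mul, map_pow]
        exact lt_of_le_of_lt
          (mul_le_of_le_one_right' (pow_le_one' ((V.valuation_le_one_iff _).2 hx) i)) (hcoeff i)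
      rw [Polynomial.eval₂_sub, hp0, Polynomial.eval₂_one, zero_sub, Valuation.map_neg,
        map_one] at h2
      exact lt_irrefl _ h2
    obtain ⟨c, hc⟩ := exists_common_root J hJ
    refine ⟨c, ?_⟩
    let Γ' : Subalgebra k (Ω × k) :=
      ((Polynomial.aeval (R := Γ) ((x, c) : Ω × k)).range).restrictScalars k
    have h1 : Γ ≤ Γ' := by
      intro γ hγ
      exact ⟨Polynomial.C ⟨γ, hγ⟩, Polynomial.aeval_C _ _⟩
    have h2 : ((0 : Ω), (1 : k)) ∉ Γ' := by
      rintro ⟨p, hp⟩
      have hp' : Polynomial.aeval (R := Γ) ((x, c) : Ω × k) p = (0, 1) := hp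
      rw [Polynomial.aeval_def] at hp'
      have e1 : p.eval₂ f x = 0 := by
        have := congrArg (RingHom.fst Ω k) hp'
        rwa [Polynomial.hom_eval₂] at this
      have e2 : p.eval₂ g c = 1 := by
        have := congrArg (RingHom.snd Ω k) hp'
        rwa [Polynomial.hom_eval₂] at this
      have e3 : p.map g ∈ J := Ideal.mem_map_of_mem (Polynomial.mapRingHom g) e1
      have e4 := hc _ e3
      rw [Polynomial.eval_map, e2] at e4
      exact one_ne_zero e4
    exact hmax Γ' h2 h1 ⟨Polynomial.X, Polynomial.aeval_X _⟩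
  refine ⟨V, ⟨fun c => (F3 _ _ (hconst c)).1, fun y hy => ?_⟩, fun x => ?_⟩
  · obtain ⟨c, hc⟩ := F4 y hy
    exact ⟨c, (F3 _ _ hc).2⟩
  · exact F3 _ _ (hΓ₀ ⟨x, rfl⟩)

namespace Chev

omit [IsAlgClosed k] in
/-- if `s ∈ R[1/s]` then `s` is integral over `R`. -/
theorem isIntegral_of_mem_adjoin_inv (R : Subalgebra k Ω) {s : Ω} (hs : s ≠ 0)
    (h : s ∈ Algebra.adjoin R {s⁻¹}) : IsIntegral R s := by
  let _ : Invertible s⁻¹ := invertibleOfNonzero (inv_ne_zero hs)
  have hu : IsUnit (⟨s⁻¹, Algebra.subset_adjoin rfl⟩ : Algebra.adjoin R {s⁻¹}) := by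
    rw [isUnit_iff_exists_inv]
    exact ⟨⟨s, h⟩, Subtype.ext (inv_mul_cancel₀ hs)⟩
  have htop : (⊥ : Ideal R).map (algebraMap R (Algebra.adjoin R {s⁻¹})) ⊔
      Ideal.span {⟨s⁻¹, Algebra.subset_adjoin rfl⟩} = ⊤ := by
    rw [Ideal.span_singleton_eq_top.2 hu, sup_top_eq]
  obtain ⟨p, hp, hpx⟩ := Algebra.exists_aeval_invOf_eq_zero_of_idealMap_adjoin_sup_span_eq_top
    s⁻¹ (⊥ : Ideal R) bot_ne_top htop
  rw [invOf_eq_inv, inv_inv] at hpx
  refine ⟨p, ?_, by rwa [← Polynomial.aeval_def]⟩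
  rw [Ideal.mem_bot, sub_eq_zero] at hp
  exact hp

/-- a maximal ideal of a finitely generated `k`-algebra is the kernel of a `k`-point -/
theorem exists_algHom_of_isMaximal {B : Type*} [CommRing B] [Algebra k B] [Algebra.FiniteType k B]
    (M : Ideal B) [hM : M.IsMaximal] : ∃ θ : B →ₐ[k] k, ∀ x ∈ M, θ x = 0 := by
  let _ := Ideal.Quotient.field M
  have : Algebra.FiniteType k (B ⧸ M) :=
    Algebra.FiniteType.of_surjective (Ideal.Quotient.mkₐ k M) (Ideal.Quotient.mkₐ_surjective k M)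
  have : Module.Finite k (B ⧸ M) := finite_of_finite_type_of_isJacobsonRing k (B ⧸ M)
  have hbij : Function.Bijective (algebraMap k (B ⧸ M)) :=
    IsAlgClosed.algebraMap_bijective_of_isIntegral
  let e : k ≃ₐ[k] (B ⧸ M) := AlgEquiv.ofBijective (Algebra.ofId k (B ⧸ M)) hbij
  refine ⟨(e.symm : (B ⧸ M) →ₐ[k] k).comp (Ideal.Quotient.mkₐ k M), fun x hx => ?_⟩
  have h0 : Ideal.Quotient.mkₐ k M x = 0 := Ideal.Quotient.eq_zero_iff_mem.2 hx
  rw [AlgHom.comp_apply, h0, map_zero]

end Chev

open Chev in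
/-- valuative criterion of integrality. -/
theorem isIntegral_adjoin_of_forall_isKRat {ι : Type*} [Finite ι] (t : ι → Ω) (s : Ω)
    (h : ∀ O : ValuationSubring Ω, IsKRat k O → (∀ b, t b ∈ O) → s ∈ O) :
    IsIntegral (Algebra.adjoin k (Set.range t)) s := by
  by_contra hs
  have hs0 : s ≠ 0 := by
    rintro rfl
    exact hs isIntegral_zero
  have hnot : s ∉ Algebra.adjoin (Algebra.adjoin k (Set.range t)) {s⁻¹} := fun hmem =>
    hs (isIntegral_of_mem_adjoin_inv _ hs0 hmem)
  set B : Subalgebra k Ω := Algebra.adjoin k (Set.range t ∪ {s⁻¹}) with hB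
  have hBeq : B = (Algebra.adjoin (Algebra.adjoin k (Set.range t)) {s⁻¹}).restrictScalars k :=
    Algebra.adjoin_union_eq_adjoin_adjoin k _ _
  let xinv : B := ⟨s⁻¹, Algebra.subset_adjoin (Or.inr rfl)⟩
  have hnu : xinv ∈ nonunits B := by
    intro hu
    obtain ⟨y, hy⟩ := isUnit_iff_exists_inv.1 hu
    have h1 : s⁻¹ * (y : Ω) = 1 := congrArg Subtype.val hy
    have h2 : (y : Ω) = s := by
      field_simp at h1
      exact h1
    apply hnot
    have h3 : s ∈ B := h2 ▸ y.2
    rw [hBeq] at h3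
    exact h3
  obtain ⟨M, hM, hxM⟩ := exists_max_ideal_of_mem_nonunits hnu
  have hfin : (Set.range t ∪ {s⁻¹}).Finite := (Set.finite_range t).union (Set.finite_singleton _)
  have : Algebra.FiniteType k B :=
    (Subalgebra.fg_iff_finiteType B).1 ⟨hfin.toFinset, by rw [hfin.coe_toFinset]⟩
  obtain ⟨θ, hθ⟩ := exists_algHom_of_isMaximal (k := k) M
  obtain ⟨O, hO, hOB⟩ := exists_isKRat_of_algHom B θ
  have h1 := (hOB xinv).2
  rw [hθ xinv hxM, map_zero, sub_zero] at h1
  have h2 : s ∈ O := h O hO fun b =>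
    (hOB ⟨t b, Algebra.subset_adjoin (Or.inl ⟨b, rfl⟩)⟩).1
  have h3 := (O.valuation_le_one_iff _).2 h2
  have h4 : O.valuation (s⁻¹ * s) < 1 := by
    rw [map_mul]
    exact lt_of_le_of_lt (mul_le_of_le_one_right' h3) h1
  rw [inv_mul_cancel₀ hs0, map_one] at h4
  exact lt_irrefl _ h4

end Fermat.Agent.S17.VT
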