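import Fermat.Agent.S17.VT.Transfer

/-!
# S17 / VT 4 : the transfer theorem for products of projective vectors
-/

set_option autoImplicit false

namespace Fermat.Agent.S17.VT

open AH

section Normalizer

variable {k Ω : Type*} [Field k] [Field Ω] [Algebra k Ω]

/-- `σ` normalises the vector `s` : `σ s` is integral and primitive. -/
def IsNormalizer (O : ValuationSubring Ω) {α : Type*} (s : α → Ω) (σ : Ω) : Prop :=
  (∀ a, σ * s a ∈ O) ∧ ∃ a, O.valuation (σ * s a) = 1

variable {O : ValuationSubring Ω} {α β : Type*}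

theorem exists_isNormalizer [Finite α] {s : α → Ω} (hs : s ≠ 0) : ∃ σ, IsNormalizer O s σ := by
  obtain ⟨a₁, ha₁⟩ := Function.ne_iff.mp hs
  have : Nonempty α := ⟨a₁⟩
  obtain ⟨a₀, ha₀⟩ := Finite.exists_max (fun a => O.valuation (s a))
  have h0 : s a₀ ≠ 0 := by
    intro h
    have h1 := ha₀ a₁
    simp only [h, map_zero, le_zero_iff, map_eq_zero] at h1
    exact ha₁ h1
  have hv0 : O.valuation (s a₀) ≠ 0 := (Valuation.ne_zero_iff _).mpr h0
  refine ⟨(s a₀)⁻¹, fun a => ?_, a₀, ?_⟩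
  · rw [← O.valuation_le_one_iff, map_mul, map_inv₀]
    rw [inv_mul_le_iff₀ (zero_lt_iff.mpr hv0), mul_one]
    exact ha₀ a
  · rw [inv_mul_cancel₀ h0, map_one]

theorem IsNormalizer.ne_zero {s : α → Ω} {σ : Ω} (h : IsNormalizer O s σ) : σ ≠ 0 := by
  rintro rfl
  obtain ⟨a, ha⟩ := h.2
  simp at ha

/-- `v(σ)⁻¹` is the maximum of the `v(s a)`. -/
theorem IsNormalizer.valuation_mul_le {s : α → Ω} {σ : Ω} (h : IsNormalizer O s σ) (a : α) :
    O.valuation σ * O.valuation (s a) ≤ 1 := by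
  rw [← map_mul]
  exact (O.valuation_le_one_iff _).mpr (h.1 a)

theorem IsNormalizer.valuation_le_aux {s : α → Ω} {σ σ' : Ω} (h : IsNormalizer O s σ)
    (h' : IsNormalizer O s σ') : O.valuation σ' ≤ O.valuation σ := by
  obtain ⟨a, ha⟩ := h.2
  have h1 := h'.valuation_mul_le a
  rw [map_mul] at ha
  rw [← ha] at h1
  have h0 : O.valuation (s a) ≠ 0 := by
    intro h0
    rw [h0, mul_zero] at ha
    exact zero_ne_one ha
  exact (mul_le_mul_iff_left₀ (zero_lt_iff.mpr h0)).mp h1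

theorem IsNormalizer.valuation_eq {s : α → Ω} {σ σ' : Ω} (h : IsNormalizer O s σ)
    (h' : IsNormalizer O s σ') : O.valuation σ = O.valuation σ' :=
  le_antisymm (h'.valuation_le_aux h) (h.valuation_le_aux h')

theorem IsNormalizer.of_valuation_eq {s : α → Ω} {σ σ' : Ω} (h : IsNormalizer O s σ)
    (h' : O.valuation σ' = O.valuation σ) : IsNormalizer O s σ' := by
  refine ⟨fun a => ?_, ?_⟩
  · rw [← O.valuation_le_one_iff, map_mul, h']
    exact h.valuation_mul_le a
  · obtain ⟨a, ha⟩ := h.2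
    exact ⟨a, by rw [map_mul, h', ← map_mul, ha]⟩

theorem IsNormalizer.res_ne_zero (hO : IsKRat k O) {s : α → Ω} {σ : Ω} (h : IsNormalizer O s σ) :
    (fun a => hO.res (σ * s a)) ≠ 0 := by
  obtain ⟨a, ha⟩ := h.2
  intro h0
  have h1 := congrFun h0 a
  simp only [Pi.zero_apply] at h1
  rw [hO.res_eq_zero_iff (h.1 a), ha] at h1
  exact lt_irrefl _ h1

/-- two normalised reductions are proportional. -/
theorem IsNormalizer.exists_res_eq (hO : IsKRat k O) {s : α → Ω} {σ σ' : Ω}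
    (h : IsNormalizer O s σ) (h' : IsNormalizer O s σ') :
    ∃ c : k, c ≠ 0 ∧ ∀ a, hO.res (σ' * s a) = c * hO.res (σ * s a) := by
  have hσ := h.ne_zero
  have hv : O.valuation (σ' / σ) = 1 := by
    rw [map_div₀, h.valuation_eq h']
    exact div_self ((Valuation.ne_zero_iff _).mpr h'.ne_zero)
  have hu : σ' / σ ∈ O := (O.valuation_le_one_iff _).mp hv.le
  refine ⟨hO.res (σ' / σ), ?_, fun a => ?_⟩
  · intro h0
    rw [hO.res_eq_zero_iff hu, hv] at h0
    exact lt_irrefl _ h0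
  · rw [← hO.res_mul hu (h.1 a)]
    congr 1
    field_simp

theorem IsNormalizer.smul {s : α → Ω} {σ c : Ω} (h : IsNormalizer O s σ) (hc : c ≠ 0) :
    IsNormalizer O (fun a => c * s a) (σ / c) := by
  have h1 : ∀ a, σ / c * (c * s a) = σ * s a := by
    intro a
    field_simp
  refine ⟨fun a => ?_, ?_⟩
  · rw [h1]; exact h.1 a
  · obtain ⟨a, ha⟩ := h.2
    exact ⟨a, by rw [h1]; exact ha⟩

theorem IsNormalizer.tmul {s : α → Ω} {t : β → Ω} {σ τ : Ω} (h : IsNormalizer O s σ)
    (h' : IsNormalizer O t τ) :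
    IsNormalizer O (fun p : α × β => s p.1 * t p.2) (σ * τ) := by
  have h1 : ∀ p : α × β, σ * τ * (s p.1 * t p.2) = (σ * s p.1) * (τ * t p.2) := by
    intro p
    ring
  refine ⟨fun p => ?_, ?_⟩
  · rw [h1]; exact O.mul_mem _ _ (h.1 _) (h'.1 _)
  · obtain ⟨a, ha⟩ := h.2
    obtain ⟨b, hb⟩ := h'.2
    exact ⟨(a, b), by rw [h1, map_mul, ha, hb, one_mul]⟩

/-- a vector with coordinates in `k` is normalised by `1`. -/
theorem isNormalizer_algebraMap (hO : IsKRat k O) {x : α → k} (hx : x ≠ 0) :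
    IsNormalizer O (fun a => algebraMap k Ω (x a)) 1 := by
  obtain ⟨a, ha⟩ := Function.ne_iff.mp hx
  refine ⟨fun a => ?_, a, ?_⟩
  · rw [one_mul]; exact hO.algebraMap_mem _
  · rw [one_mul]; exact hO.valuation_algebraMap ha

end Normalizer

theorem IsKRat.res_prod {k Ω : Type*} [Field k] [Field Ω] [Algebra k Ω] {O : ValuationSubring Ω}
    (hO : IsKRat k O) {ι : Type*} (s : Finset ι) (f : ι → Ω) (hf : ∀ i ∈ s, f i ∈ O) :
    hO.res (∏ i ∈ s, f i) = ∏ i ∈ s, hO.res (f i) := by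
  classical
  induction s using Finset.induction_on with
  | empty =>
    simp only [Finset.prod_empty]
    have := hO.res_algebraMap 1
    rwa [map_one] at this
  | insert a s has ih =>
    rw [Finset.prod_insert has, Finset.prod_insert has,
      hO.res_mul (hf a (Finset.mem_insert_self _ _))
        (prod_mem fun i hi => hf i (Finset.mem_insert_of_mem hi)),
      ih fun i hi => hf i (Finset.mem_insert_of_mem hi)]

variable {Ω : Type*} [Field Ω] [Algebra Qb Ω]

/-- **transfer theorem for products.**  `s a` (`a ∈ A`), `t b` (`b ∈ B`) finitely many vectors with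
coordinates in `Ω`, `lam` a scalar.  If `v(lam) ∏ ‖s a‖ ≤ ∏ ‖t b‖` for all valuation rings with residue
field `ℚ̄`, then `∑ h(reduction of s a) ≤ ∑ h(reduction of t b) + C` for all those valuation rings
for which equality holds.

Proof: `transfer` for `S = lam • ⨂ s a`, `T = ⨂ t b` (index sets `∀ a, α a`, `∀ b, β b`),
`σ = ∏ τ b`; `σ S = μ • ⨂ (σ a • s a)` with `μ = lam ∏ τ b / ∏ σ a`, `v(μ) = 1`;
`absLogHeight_pi_prod`, `absLogHeight_smul`. -/
theorem transfer_prod_le {A B : Type*} [Fintype A] [Fintype B] {α : A → Type*} {β : B → Type*}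
    [∀ a, Finite (α a)] [∀ b, Finite (β b)] (s : ∀ a, α a → Ω) (t : ∀ b, β b → Ω) (lam : Ω)
    (h : ∀ O : ValuationSubring Ω, IsKRat Qb O → ∀ (σ : A → Ω) (τ : B → Ω),
      (∀ a, IsNormalizer O (s a) (σ a)) → (∀ b, IsNormalizer O (t b) (τ b)) →
      O.valuation lam * ∏ b, O.valuation (τ b) ≤ ∏ a, O.valuation (σ a)) :
    ∃ C : ℝ, ∀ (O : ValuationSubring Ω) (hO : IsKRat Qb O) (σ : A → Ω) (τ : B → Ω),
      (∀ a, IsNormalizer O (s a) (σ a)) → (∀ b, IsNormalizer O (t b) (τ b)) →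
      O.valuation lam * ∏ b, O.valuation (τ b) = ∏ a, O.valuation (σ a) →
      ∑ a, absLogHeight (fun i => hO.res (σ a * s a i)) ≤
        ∑ b, absLogHeight (fun i => hO.res (τ b * t b i)) + C := by
  classical
  by_cases hs : ∀ a, s a ≠ 0
  swap
  · push Not at hs
    obtain ⟨a, ha⟩ := hs
    refine ⟨0, fun O hO σ τ hσ _ _ => ?_⟩
    exfalso
    obtain ⟨i, hi⟩ := (hσ a).2
    rw [ha] at hi
    simp at hi
  by_cases ht : ∀ b, t b ≠ 0
  swap
  · push Not at ht
    obtain ⟨b, hb⟩ := ht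
    refine ⟨0, fun O hO σ τ _ hτ _ => ?_⟩
    exfalso
    obtain ⟨i, hi⟩ := (hτ b).2
    rw [hb] at hi
    simp at hi
  let S : (∀ a, α a) → Ω := fun p => lam * ∏ a, s a (p a)
  let T : (∀ b, β b) → Ω := fun q => ∏ b, t b (q b)
  obtain ⟨C, hC⟩ := transfer S T (by
    intro O hO p
    choose σ hσ using fun a => exists_isNormalizer (O := O) (hs a)
    choose τ hτ using fun b => exists_isNormalizer (O := O) (ht b)
    choose q hq using fun b => (hτ b).2
    refine ⟨q, ?_⟩
    have h1 := h O hO σ τ hσ hτ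
    have hσ0 : ∏ a, O.valuation (σ a) ≠ 0 :=
      Finset.prod_ne_zero_iff.mpr fun a _ => (Valuation.ne_zero_iff _).mpr (hσ a).ne_zero
    have hτ0 : ∏ b, O.valuation (τ b) ≠ 0 :=
      Finset.prod_ne_zero_iff.mpr fun b _ => (Valuation.ne_zero_iff _).mpr (hτ b).ne_zero
    have h2 : O.valuation (S p) * ∏ a, O.valuation (σ a) ≤ O.valuation lam := by
      have : O.valuation (S p) * ∏ a, O.valuation (σ a) =
          O.valuation lam * ∏ a, (O.valuation (σ a) * O.valuation (s a (p a))) := by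
        simp only [S, map_mul, map_prod, Finset.prod_mul_distrib]
        ac_rfl
      rw [this]
      calc O.valuation lam * ∏ a, (O.valuation (σ a) * O.valuation (s a (p a)))
          ≤ O.valuation lam * 1 :=
            mul_le_mul' le_rfl (Finset.prod_le_one' fun a _ => (hσ a).valuation_mul_le _)
        _ = O.valuation lam := mul_one _
    have h3 : O.valuation (T q) * ∏ b, O.valuation (τ b) = 1 := by
      have : O.valuation (T q) * ∏ b, O.valuation (τ b) =
          ∏ b, O.valuation (τ b * t b (q b)) := by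
        simp only [T, map_mul, map_prod, Finset.prod_mul_distrib]
        ac_rfl
      rw [this]
      exact Finset.prod_eq_one fun b _ => hq b
    have hpos : 0 < (∏ a, O.valuation (σ a)) * ∏ b, O.valuation (τ b) :=
      zero_lt_iff.mpr (mul_ne_zero hσ0 hτ0)
    refine (mul_le_mul_iff_left₀ hpos).mp ?_
    calc O.valuation (S p) * ((∏ a, O.valuation (σ a)) * ∏ b, O.valuation (τ b))
        = (O.valuation (S p) * ∏ a, O.valuation (σ a)) * ∏ b, O.valuation (τ b) := by ac_rfl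
      _ ≤ O.valuation lam * ∏ b, O.valuation (τ b) := mul_le_mul' h2 le_rfl
      _ ≤ ∏ a, O.valuation (σ a) := h1
      _ = (O.valuation (T q) * ∏ b, O.valuation (τ b)) * ∏ a, O.valuation (σ a) := by
          rw [h3, one_mul]
      _ = O.valuation (T q) * ((∏ a, O.valuation (σ a)) * ∏ b, O.valuation (τ b)) := by ac_rfl)
  refine ⟨C, fun O hO σ τ hσ hτ heq => ?_⟩
  have hT : ∀ q, (∏ b, τ b) * T q = ∏ b, (τ b * t b (q b)) := fun q => by
    rw [Finset.prod_mul_distrib]
  have hTO : ∀ q, (∏ b, τ b) * T q ∈ O := fun q => by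
    rw [hT]
    exact prod_mem fun b _ => (hτ b).1 _
  have h1 := hC O hO (∏ b, τ b) hTO
  have hR : absLogHeight (fun q => hO.res ((∏ b, τ b) * T q)) =
      ∑ b, absLogHeight (fun i => hO.res (τ b * t b i)) := by
    rw [← absLogHeight_pi_prod _ (fun b => (hτ b).res_ne_zero hO)]
    congr 1
    funext q
    rw [hT, hO.res_prod _ _ (fun b _ => (hτ b).1 _)]
  set μ := lam * (∏ b, τ b) / ∏ a, σ a with hμ
  have hσ0 : ∏ a, σ a ≠ 0 := Finset.prod_ne_zero_iff.mpr fun a _ => (hσ a).ne_zero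
  have hμv : O.valuation μ = 1 := by
    rw [hμ, map_div₀, map_mul, map_prod, map_prod, heq]
    exact div_self (Finset.prod_ne_zero_iff.mpr fun a _ =>
      (Valuation.ne_zero_iff _).mpr (hσ a).ne_zero)
  have hμO : μ ∈ O := (O.valuation_le_one_iff _).mp hμv.le
  have hμres : hO.res μ ≠ 0 := by
    intro h0
    rw [hO.res_eq_zero_iff hμO, hμv] at h0
    exact lt_irrefl _ h0
  have hS : ∀ p, (∏ b, τ b) * S p = μ * ∏ a, (σ a * s a (p a)) := by
    intro p
    rw [Finset.prod_mul_distrib]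
    simp only [S, hμ]
    field_simp
  have hL : absLogHeight (fun p => hO.res ((∏ b, τ b) * S p)) =
      ∑ a, absLogHeight (fun i => hO.res (σ a * s a i)) := by
    have e1 : (fun p => hO.res ((∏ b, τ b) * S p)) =
        fun p : (∀ a, α a) => hO.res μ * ∏ a, hO.res (σ a * s a (p a)) := by
      funext p
      rw [hS, hO.res_mul hμO (prod_mem fun a _ => (hσ a).1 _),
        hO.res_prod _ _ (fun a _ => (hσ a).1 _)]
    rw [e1, absLogHeight_smul _ hμres,
      absLogHeight_pi_prod _ (fun a => (hσ a).res_ne_zero hO)]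
  rw [hL, hR] at h1
  exact h1

/-- two-sided version. -/
theorem transfer_prod_eq {A B : Type*} [Fintype A] [Fintype B] {α : A → Type*} {β : B → Type*}
    [∀ a, Finite (α a)] [∀ b, Finite (β b)] (s : ∀ a, α a → Ω) (t : ∀ b, β b → Ω) (lam : Ω)
    (h : ∀ O : ValuationSubring Ω, IsKRat Qb O → ∀ (σ : A → Ω) (τ : B → Ω),
      (∀ a, IsNormalizer O (s a) (σ a)) → (∀ b, IsNormalizer O (t b) (τ b)) →
      O.valuation lam * ∏ b, O.valuation (τ b) = ∏ a, O.valuation (σ a)) :
    ∃ C : ℝ, ∀ (O : ValuationSubring Ω) (hO : IsKRat Qb O) (σ : A → Ω) (τ : B → Ω),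
      (∀ a, IsNormalizer O (s a) (σ a)) → (∀ b, IsNormalizer O (t b) (τ b)) →
      |∑ a, absLogHeight (fun i => hO.res (σ a * s a i)) -
        ∑ b, absLogHeight (fun i => hO.res (τ b * t b i))| ≤ C := by
  have hinv : ∀ O : ValuationSubring Ω, IsKRat Qb O → ∀ (τ : B → Ω) (σ : A → Ω),
      (∀ b, IsNormalizer O (t b) (τ b)) → (∀ a, IsNormalizer O (s a) (σ a)) →
      O.valuation lam⁻¹ * ∏ a, O.valuation (σ a) = ∏ b, O.valuation (τ b) := by
    intro O hO τ σ hτ hσ
    have h1 := h O hO σ τ hσ hτ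
    have hσ0 : ∏ a, O.valuation (σ a) ≠ 0 :=
      Finset.prod_ne_zero_iff.mpr fun a _ => (Valuation.ne_zero_iff _).mpr (hσ a).ne_zero
    have hl : O.valuation lam ≠ 0 := by
      intro h0
      rw [h0, zero_mul] at h1
      exact hσ0 h1.symm
    rw [← h1, map_inv₀, ← mul_assoc, inv_mul_cancel₀ hl, one_mul]
  obtain ⟨C₁, hC₁⟩ := transfer_prod_le s t lam fun O hO σ τ hσ hτ => (h O hO σ τ hσ hτ).le
  obtain ⟨C₂, hC₂⟩ := transfer_prod_le t s lam⁻¹ fun O hO τ σ hτ hσ => (hinv O hO τ σ hτ hσ).le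
  refine ⟨max C₁ C₂, fun O hO σ τ hσ hτ => ?_⟩
  have h1 := hC₁ O hO σ τ hσ hτ (h O hO σ τ hσ hτ)
  have h2 := hC₂ O hO τ σ hτ hσ (hinv O hO τ σ hτ hσ)
  rw [abs_le]
  constructor
  · have := le_max_right C₁ C₂
    linarith
  · have := le_max_left C₁ C₂
    linarith

end Fermat.Agent.S17.VT
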