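import Fermat.Agent.S17.AH.Rel

/-!
# S17 / VT 3 : the **transfer theorem**

`Ω ⊇ ℚ̄` any field, `s`, `t` two vectors with coordinates in `Ω` ("generic" vectors).  If
`max_a v(s a) ≤ max_b v(t b)` for **every** valuation ring `O` of `Ω` with residue field `ℚ̄`,
then the heights of all the specialisations of `s` are bounded by those of `t`, uniformly.
-/

set_option autoImplicit false

namespace Fermat.Agent.S17.VT

open AH

variable {Ω : Type*} [Field Ω] [Algebra Qb Ω]

/-- **transfer theorem**.  Proof: `exists_hRel` for every `a`, then `HRel.Holds.smul`,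
`HRel.Holds.res` and `exists_absLogHeight_le_of_hRel`. (`σ * s a ∈ O` follows from `h`.) -/
theorem transfer {α β : Type*} [Finite α] [Finite β] (s : α → Ω) (t : β → Ω)
    (h : ∀ O : ValuationSubring Ω, IsKRat Qb O → ∀ a, ∃ b, O.valuation (s a) ≤ O.valuation (t b)) :
    ∃ C : ℝ, ∀ (O : ValuationSubring Ω) (hO : IsKRat Qb O) (σ : Ω), (∀ b, σ * t b ∈ O) →
      absLogHeight (fun a => hO.res (σ * s a)) ≤ absLogHeight (fun b => hO.res (σ * t b)) + C := by
  classical
  choose R hR using fun a => exists_hRel t (s a) (fun O hO => h O hO a)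
  obtain ⟨C, hC⟩ := exists_absLogHeight_le_of_hRel R
  refine ⟨C, fun O hO σ hσ => hC _ _ fun a => ?_⟩
  have h1 := (hR a).smul σ
  have hs : σ * s a ∈ O := by
    obtain ⟨b, hb⟩ := h O hO a
    rw [← ValuationSubring.valuation_le_one_iff]
    calc O.valuation (σ * s a) = O.valuation σ * O.valuation (s a) := map_mul _ _ _
      _ ≤ O.valuation σ * O.valuation (t b) := mul_le_mul_right hb _
      _ = O.valuation (σ * t b) := (map_mul _ _ _).symm
      _ ≤ 1 := (ValuationSubring.valuation_le_one_iff _ _).2 (hσ b)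
  exact h1.res hO hs hσ

end Fermat.Agent.S17.VT
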